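import Mathlib.NumberTheory.NumberField.Cyclotomic.Galois
import Mathlib.NumberTheory.JacobiSum.Basic
import Mathlib.FieldTheory.Finite.Basic
import Fermat.Prelude.Def_Stickelberger_Basic

/-!
# Stickelberger's relation in degree one, via Jacobi sums

For `K = ℚ(ζ_p)` and a prime `q` of `𝓞 K` above a prime `l ≡ 1 mod p`, the Jacobi sum `J(ω, ω)` of
the `p`-th power residue character `ω` modulo `q` generates `∏_{0 < c < p/2} σ_c⁻¹ q`.
-/

set_option autoImplicit false

open NumberField Finset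
open scoped Pointwise

namespace Fermat.Agent.Stick

section FiniteFieldSum

variable {F : Type*} [Field F] [Fintype F]

/-- `∑ x, x^i (1 - x)^j = 0` when `i + j < #F - 1`. -/
theorem sum_pow_mul_one_sub_pow_eq_zero {i j : ℕ} (h : i + j < Fintype.card F - 1) :
    ∑ x : F, x ^ i * (1 - x) ^ j = 0 := by
  have e : ∀ x : F, x ^ i * (1 - x) ^ j =
      ∑ k ∈ range (j + 1), (-1) ^ k * (j.choose k : F) * x ^ (i + k) := by
    intro x
    rw [sub_eq_add_neg 1 x, add_comm (1 : F) (-x), add_pow, mul_sum]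
    refine sum_congr rfl fun k _ => ?_
    rw [one_pow, neg_pow x, pow_add]
    ring
  simp_rw [e]
  rw [sum_comm]
  refine sum_eq_zero fun k hk => ?_
  rw [← mul_sum, FiniteField.sum_pow_lt_card_sub_one, mul_zero]
  have := mem_range.mp hk
  omega

end FiniteFieldSum

section exponentSet

variable {p : ℕ}

theorem exponentSet_eq_Icc (hp2 : Odd p) :
    Stickelberger.exponentSet p = Finset.Icc 1 ((p - 1) / 2) := by
  obtain ⟨k, hk⟩ := hp2
  ext c
  rw [Stickelberger.mem_exponentSet, Finset.mem_Icc]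
  omega

theorem two_mul_card_exponentSet (hp2 : Odd p) :
    2 * #(Stickelberger.exponentSet p) = p - 1 := by
  obtain ⟨k, hk⟩ := hp2
  rw [exponentSet_eq_Icc ⟨k, hk⟩, Nat.card_Icc]
  omega

theorem eigenvalueScalar_ne_zero [Fact p.Prime] (hp2 : Odd p) :
    (Stickelberger.eigenvalueScalar p : ZMod p) ≠ 0 := by
  have hp2' := hp2
  obtain ⟨k, hk⟩ := hp2
  have h2 : Stickelberger.eigenvalueScalar p * 2 = (k + 1) * k := by
    have : Finset.range (k + 1) = insert 0 (Finset.Icc 1 k) := by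
      ext c
      simp only [Finset.mem_range, Finset.mem_insert, Finset.mem_Icc]
      omega
    have hs := Finset.sum_range_id_mul_two (k + 1)
    rw [this, Finset.sum_insert (by simp), zero_add, Nat.add_sub_cancel] at hs
    rw [Stickelberger.eigenvalueScalar, exponentSet_eq_Icc hp2', show (p - 1) / 2 = k by omega]
    exact hs
  intro h
  have h3 : (p : ℕ) ∣ Stickelberger.eigenvalueScalar p := (ZMod.natCast_eq_zero_iff _ _).mp h
  have h4 : p ∣ (k + 1) * k := h2 ▸ dvd_mul_of_dvd_left h3 2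
  rcases (Fact.out : p.Prime).dvd_mul.mp h4 with h5 | h5
  · have := Nat.le_of_dvd (by omega) h5
    have := (Fact.out : p.Prime).two_le
    omega
  · have := (Fact.out : p.Prime).two_le
    rcases Nat.eq_zero_or_pos k with h6 | h6
    · omega
    · have := Nat.le_of_dvd h6 h5
      omega

end exponentSet

variable (p : ℕ) [hp : Fact p.Prime] {K : Type*} [Field K] [NumberField K]
  [hK : IsCyclotomicExtension {p} ℚ K]
variable {l : ℕ} [hl : Fact l.Prime] (q : Ideal (𝓞 K)) [hq : q.IsPrime]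
  [hql : q.LiesOver (Ideal.span {(l : ℤ)})]

theorem not_dvd_of_mod_eq_one (hlp : l % p = 1) : ¬ l ∣ p := by
  intro h
  rw [(Nat.prime_dvd_prime_iff_eq hl.out hp.out).mp h, Nat.mod_self] at hlp
  exact absurd hlp zero_ne_one

theorem coprime_of_mod_eq_one (hlp : l % p = 1) : l.Coprime p :=
  (hl.out.coprime_iff_not_dvd).mpr (not_dvd_of_mod_eq_one p hlp)

include hql in
theorem natCast_mem : (l : 𝓞 K) ∈ q := by
  have h := (Ideal.mem_of_liesOver q (Ideal.span {(l : ℤ)}) (l : ℤ)).mp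
    (Ideal.mem_span_singleton_self _)
  simpa using h

include hl hql in
theorem ne_bot_prime : q ≠ ⊥ := by
  intro h
  have := natCast_mem (l := l) q
  rw [h, Ideal.mem_bot, Nat.cast_eq_zero] at this
  exact hl.out.ne_zero this

include hK in
theorem absNorm_eq (hlp : l % p = 1) : Ideal.absNorm q = l := by
  rw [← Ideal.pow_inertiaDeg l q,
    IsCyclotomicExtension.Rat.inertiaDeg_eq_of_not_dvd (m := p) l K q (not_dvd_of_mod_eq_one p hlp),
    orderOf_eq_one_iff.mpr, pow_one]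
  rw [← ZMod.natCast_mod, hlp, Nat.cast_one]

include hl hql hq in
theorem isMaximal_prime : q.IsMaximal :=
  Ideal.IsPrime.isMaximal inferInstance (ne_bot_prime (l := l) q)

include hl hql hK in
/-- The stabiliser of `q` in `Gal(K/ℚ)` is trivial. -/
theorem eq_one_of_smul_eq (hlp : l % p = 1) {σ : Gal(K/ℚ)} (hσ : σ • q = q) : σ = 1 := by
  have := isMaximal_prime (l := l) q
  have hc := coprime_of_mod_eq_one p hlp
  have h := IsCyclotomicExtension.Rat.mem_zpowers_galEquivZMod_of_mem_stabilizer p K l q hc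
    (σ := σ) (MulAction.mem_stabilizer_iff.mpr hσ)
  have h1 : ZMod.unitOfCoprime l hc = 1 := by
    ext
    rw [ZMod.coe_unitOfCoprime, Units.val_one, ← ZMod.natCast_mod, hlp, Nat.cast_one]
  rw [h1, Subgroup.zpowers_one_eq_bot, Subgroup.mem_bot] at h
  exact (MulEquiv.map_eq_one_iff _).mp h

include hl hql hK in
theorem smul_inj (hlp : l % p = 1) {σ τ : Gal(K/ℚ)} (h : σ • q = τ • q) : σ = τ := by
  have : (τ⁻¹ * σ) • q = q := by rw [mul_smul, h, inv_smul_smul]
  exact (inv_mul_eq_one.mp (eq_one_of_smul_eq (l := l) p q hlp this)).symm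

include hK in
/-- There is a `p`-th power residue character modulo `q`. -/
theorem exists_residueChar (hlp : l % p = 1) :
    ∃ ω : MulChar (ZMod l) (𝓞 K), ω ^ p = 1 ∧ ω ≠ 1 ∧
      ∀ (φ : ZMod l →+* 𝓞 K ⧸ q) (x : ZMod l),
        Ideal.Quotient.mk q (ω x) = φ (x ^ ((l - 1) / p)) := by
  haveI := isMaximal_prime (l := l) q
  set m := (l - 1) / p with hm
  have hdvd : p ∣ l - 1 := by
    rw [← hlp]; exact Nat.dvd_sub_mod l
  have hpm : m * p = l - 1 := Nat.div_mul_cancel hdvd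
  have hl2 := hl.out.two_le
  have hm0 : m ≠ 0 := fun h => by rw [h, zero_mul] at hpm; omega
  haveI : CharP (𝓞 K ⧸ q) l := (CharP.charP_iff_prime_eq_zero hl.out).mpr <| by
    rw [← map_natCast (Ideal.Quotient.mk q), Ideal.Quotient.eq_zero_iff_mem]
    exact natCast_mem q
  let φ₀ : ZMod l →+* 𝓞 K ⧸ q := ZMod.castHom (dvd_refl l) _
  have hζ := IsCyclotomicExtension.zeta_spec p ℚ K
  set η := hζ.toInteger with hη_def
  have hη : IsPrimitiveRoot η p := hζ.toInteger_isPrimitiveRoot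
  have hηq : IsPrimitiveRoot (Ideal.Quotient.mk q η) p := by
    refine hη.idealQuotient_mk (by simpa using Ideal.IsPrime.ne_top hq) ?_
    rw [absNorm_eq p q hlp]
    exact coprime_of_mod_eq_one p hlp
  obtain ⟨g, hg⟩ := IsCyclic.exists_generator (α := (ZMod l)ˣ)
  have hgp : φ₀ ((g : ZMod l) ^ m) ^ p = 1 := by
    rw [← map_pow, ← pow_mul, hpm, ZMod.pow_card_sub_one_eq_one g.ne_zero, map_one]
  haveI : NeZero p := ⟨hp.out.ne_zero⟩
  obtain ⟨i, -, hi⟩ := hηq.eq_pow_of_pow_eq_one hgp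
  let u : (𝓞 K)ˣ := Units.ofPowEqOne (η ^ i) p
    (by rw [← pow_mul, mul_comm, pow_mul, hη.pow_eq_one, one_pow]) hp.out.ne_zero
  have hu : ((u : (𝓞 K)ˣ) : 𝓞 K) = η ^ i := rfl
  have hup : u ^ p = 1 := by
    ext
    rw [Units.val_pow_eq_pow_val, hu, ← pow_mul, mul_comm, pow_mul, hη.pow_eq_one, one_pow,
      Units.val_one]
  have humem : u ∈ rootsOfUnity (Fintype.card (ZMod l)ˣ) (𝓞 K) := by
    rw [mem_rootsOfUnity, ZMod.card_units, ← hpm, mul_comm, pow_mul, hup, one_pow]
  refine ⟨MulChar.ofRootOfUnity humem hg, ?_, ?_, ?_⟩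
  · rw [MulChar.eq_iff hg, MulChar.pow_apply_coe, MulChar.ofRootOfUnity_spec,
      MulChar.one_apply_coe, ← Units.val_pow_eq_pow_val, hup, Units.val_one]
  · intro h
    rw [MulChar.eq_iff hg, MulChar.ofRootOfUnity_spec, MulChar.one_apply_coe] at h
    have h1 : φ₀ ((g : ZMod l) ^ m) = φ₀ 1 := by
      rw [← hi, map_one, ← map_pow, ← hu, h, map_one]
    have h2 : g ^ m = 1 := Units.ext (by simpa using φ₀.injective h1)
    have h3 := orderOf_dvd_of_pow_eq_one h2
    rw [orderOf_eq_card_of_forall_mem_zpowers hg, Nat.card_eq_fintype_card, ZMod.card_units] at h3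
    have h4 := Nat.le_of_dvd (Nat.pos_of_ne_zero hm0) h3
    have h5 : m * 2 ≤ l - 1 := hpm ▸ Nat.mul_le_mul_left m hp.out.two_le
    omega
  · intro φ x
    rw [show φ = φ₀ from Subsingleton.elim _ _]
    rcases eq_or_ne x 0 with rfl | hx
    · rw [MulChar.map_zero, map_zero, zero_pow hm0, map_zero]
    · obtain ⟨k, hk⟩ := (mem_powers_iff_mem_zpowers (x := g)).mpr (hg (Units.mk0 x hx))
      have hx' : x = (g : ZMod l) ^ k := by
        rw [← Units.val_pow_eq_pow_val]; exact (congrArg Units.val hk).symm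
      rw [hx', map_pow, MulChar.ofRootOfUnity_spec, map_pow, hu, map_pow, hi, ← map_pow,
        ← pow_mul, ← pow_mul, mul_comm]

theorem residueChar_pow_ne_one {ω : MulChar (ZMod l) (𝓞 K)} (h1 : ω ^ p = 1) (h2 : ω ≠ 1)
    {a : ℕ} (ha : ¬ p ∣ a) : ω ^ a ≠ 1 := by
  intro h
  have h3 : orderOf ω = p := orderOf_eq_prime h1 h2
  exact ha (h3 ▸ orderOf_dvd_of_pow_eq_one h)

include hK in
/-- `σ J(ω, ω) = J(ω^c, ω^c)` if `σ ζ = ζ^c`. -/
theorem smul_jacobiSum {ω : MulChar (ZMod l) (𝓞 K)} (h1 : ω ^ p = 1) (σ : Gal(K/ℚ)) :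
    σ • jacobiSum ω ω =
      jacobiSum (ω ^ (IsCyclotomicExtension.Rat.galEquivZMod p K σ).val.val)
        (ω ^ (IsCyclotomicExtension.Rat.galEquivZMod p K σ).val.val) := by
  haveI : NeZero p := ⟨hp.out.ne_zero⟩
  have key : ω.ringHomComp (MulSemiringAction.toRingHom Gal(K/ℚ) (𝓞 K) σ) =
      ω ^ (IsCyclotomicExtension.Rat.galEquivZMod p K σ).val.val := by
    refine MulChar.ext fun a => ?_
    rw [MulChar.ringHomComp_apply, MulChar.pow_apply_coe, MulSemiringAction.toRingHom_apply]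
    refine IsCyclotomicExtension.Rat.galEquivZMod_smul_of_pow_eq p K σ ?_
    rw [← MulChar.pow_apply_coe, h1, MulChar.one_apply_coe]
  rw [← key, jacobiSum_ringHomComp]
  rfl

theorem jacobiSum_pow_mem {ω : MulChar (ZMod l) (𝓞 K)}
    (hω : ∀ (φ : ZMod l →+* 𝓞 K ⧸ q) (x : ZMod l),
      Ideal.Quotient.mk q (ω x) = φ (x ^ ((l - 1) / p)))
    (hlp : l % p = 1) {a b : ℕ} (ha : a ≠ 0) (hb : b ≠ 0) (hab : a + b < p) :
    jacobiSum (ω ^ a) (ω ^ b) ∈ q := by
  haveI := isMaximal_prime (l := l) q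
  haveI : CharP (𝓞 K ⧸ q) l := (CharP.charP_iff_prime_eq_zero hl.out).mpr <| by
    rw [← map_natCast (Ideal.Quotient.mk q), Ideal.Quotient.eq_zero_iff_mem]
    exact natCast_mem q
  let φ : ZMod l →+* 𝓞 K ⧸ q := ZMod.castHom (dvd_refl l) _
  rw [← Ideal.Quotient.eq_zero_iff_mem, jacobiSum, map_sum]
  have e : ∀ x : ZMod l, Ideal.Quotient.mk q ((ω ^ a) x * (ω ^ b) (1 - x)) =
      φ (x ^ ((l - 1) / p * a) * (1 - x) ^ ((l - 1) / p * b)) := by
    intro x
    rw [MulChar.pow_apply' _ ha, MulChar.pow_apply' _ hb, map_mul, map_pow, map_pow, hω φ, hω φ,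
      ← map_pow, ← map_pow, ← pow_mul, ← pow_mul, ← map_mul]
  simp_rw [e]
  rw [← map_sum, sum_pow_mul_one_sub_pow_eq_zero, map_zero]
  rw [ZMod.card, ← mul_add]
  have hdvd : p ∣ l - 1 := by
    rw [← hlp]; exact Nat.dvd_sub_mod l
  have hm : 0 < (l - 1) / p := by
    have := hl.out.two_le
    exact Nat.div_pos (Nat.le_of_dvd (by omega) hdvd) hp.out.pos
  calc (l - 1) / p * (a + b) < (l - 1) / p * p := Nat.mul_lt_mul_of_pos_left hab hm
    _ = l - 1 := Nat.div_mul_cancel hdvd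

theorem expUnit_val {c : ℕ} (hc : c ∈ Stickelberger.exponentSet p) :
    ((Stickelberger.expUnit p c : (ZMod p)ˣ) : ZMod p).val = c := by
  rw [Stickelberger.mem_exponentSet] at hc
  have hcp : Nat.Coprime c p :=
    Nat.Coprime.symm ((hp.out.coprime_iff_not_dvd).mpr
      (Nat.not_dvd_of_pos_of_lt hc.1 (by omega)))
  rw [Stickelberger.expUnit, dif_pos hcp, ZMod.coe_unitOfCoprime, ZMod.val_natCast_of_lt]
  omega

variable (K) in
include hK in
/-- `σ_c`: the automorphism of `ℚ(ζ_p)` attached to a unit of `ZMod p`. -/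
noncomputable def sigmaOf (u : (ZMod p)ˣ) : Gal(K/ℚ) :=
  haveI : NeZero p := ⟨hp.out.ne_zero⟩
  (IsCyclotomicExtension.Rat.galEquivZMod p K).symm u

include hK in
theorem galEquivZMod_sigmaOf (u : (ZMod p)ˣ) :
    IsCyclotomicExtension.Rat.galEquivZMod p K (sigmaOf p K u) = u :=
  MulEquiv.apply_symm_apply _ u

include hK in
/-- **Stickelberger's relation** for a prime of degree one of `ℚ(ζ_p)`:
the ideal `∏_{0 < c < p/2} σ_c⁻¹ q` is principal. -/
theorem exists_span_singleton_eq_prod_smul (hp2 : Odd p) (hlp : l % p = 1) :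
    ∃ J : 𝓞 K, J ≠ 0 ∧ Ideal.span {J} =
      ∏ c ∈ Stickelberger.exponentSet p, (sigmaOf p K (Stickelberger.expUnit p c))⁻¹ • q := by
  classical
  haveI : NeZero p := ⟨hp.out.ne_zero⟩
  obtain ⟨ω, h1, h2, hω⟩ := exists_residueChar p q hlp
  have hp3 : 3 ≤ p := by
    have := hp.out.two_le
    obtain ⟨k, hk⟩ := hp2
    omega
  set J := jacobiSum ω ω with hJ
  -- `J` times its complex conjugate is `l`
  set τ : Gal(K/ℚ) := sigmaOf p K (-1) with hτ
  have hval : ((-1 : (ZMod p)ˣ) : ZMod p).val = p - 1 := by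
    obtain ⟨n, hn⟩ : ∃ n, p = n + 1 := ⟨p - 1, by omega⟩
    subst hn
    simp [ZMod.val_neg_one]
  have hτJ : τ • J = jacobiSum ω⁻¹ ω⁻¹ := by
    rw [hJ, smul_jacobiSum p h1, galEquivZMod_sigmaOf, hval]
    have : ω⁻¹ = ω ^ (p - 1) := by
      rw [inv_eq_iff_mul_eq_one, ← pow_succ', show p - 1 + 1 = p by omega, h1]
    rw [this]
  have hinj : Function.Injective (algebraMap (𝓞 K) K) := FaithfulSMul.algebraMap_injective _ _
  have hmul : J * τ • J = l := by
    apply hinj
    rw [map_mul, hτJ, hJ, ← jacobiSum_ringHomComp, ← jacobiSum_ringHomComp,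
      ← MulChar.ringHomComp_inv, jacobiSum_mul_jacobiSum_inv, map_natCast, ZMod.card]
    · rw [ringChar.eq_zero, ZMod.ringChar_zmod_n]
      exact hl.out.ne_zero.symm
    · exact (MulChar.ringHomComp_ne_one_iff hinj).mpr h2
    · exact (MulChar.ringHomComp_ne_one_iff hinj).mpr h2
    · rw [← MulChar.ringHomComp_mul, ← sq]
      refine (MulChar.ringHomComp_ne_one_iff hinj).mpr (residueChar_pow_ne_one p h1 h2 ?_)
      exact Nat.not_dvd_of_pos_of_lt (by omega) (by omega)
  have hJ0 : J ≠ 0 := by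
    intro h
    rw [h, zero_mul] at hmul
    exact hl.out.ne_zero (by exact_mod_cast hmul.symm)
  refine ⟨J, hJ0, ?_⟩
  set P : ℕ → Ideal (𝓞 K) :=
    fun c => (sigmaOf p K (Stickelberger.expUnit p c))⁻¹ • q with hP
  have hPprime : ∀ c, (P c).IsPrime := fun c => Ideal.IsPrime.smul _
  have hPover : ∀ c, (P c).LiesOver (Ideal.span {(l : ℤ)}) := fun c => Ideal.LiesOver.smul _
  have hPmax : ∀ c, (P c).IsMaximal := fun c =>
    have := hPprime c; have := hPover c; isMaximal_prime (l := l) (P c)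
  have hPnorm : ∀ c, Ideal.absNorm (P c) = l := fun c =>
    have := hPprime c; have := hPover c; absNorm_eq p (P c) hlp
  have hdvd : (∏ c ∈ Stickelberger.exponentSet p, P c) ∣ Ideal.span {J} := by
    refine Finset.prod_dvd_of_coprime ?_ ?_
    · intro a ha b hb hab
      refine Ideal.isCoprime_iff_sup_eq.mpr ((hPmax a).coprime_of_ne (hPmax b) fun h => hab ?_)
      have h' := smul_inj (l := l) p q hlp h
      rw [inv_inj] at h'
      have h'' := congrArg (IsCyclotomicExtension.Rat.galEquivZMod p K) h'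
      rw [galEquivZMod_sigmaOf, galEquivZMod_sigmaOf] at h''
      rw [← expUnit_val p ha, h'', expUnit_val p hb]
    · intro c hc
      rw [Ideal.dvd_span_singleton]
      rw [hP, Ideal.mem_inv_pointwise_smul_iff, hJ, smul_jacobiSum p h1, galEquivZMod_sigmaOf,
        expUnit_val p hc]
      rw [Stickelberger.mem_exponentSet] at hc
      exact jacobiSum_pow_mem p q hω hlp (by omega) (by omega) (by omega)
  -- compare norms
  have hN : Ideal.absNorm (Ideal.span {J}) ^ 2 = l ^ (p - 1) := by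
    have hfr : Module.finrank ℚ K = p - 1 := by
      rw [IsCyclotomicExtension.finrank (n := p) K
        (Polynomial.cyclotomic.irreducible_rat hp.out.pos), Nat.totient_prime hp.out]
    have hnτ : Algebra.norm ℚ ((τ • J : 𝓞 K) : K) = Algebra.norm ℚ (J : K) := by
      rw [show ((τ • J : 𝓞 K) : K) = τ (J : K) from rfl, Algebra.norm_eq_of_algEquiv]
    have hK2 : (Algebra.norm ℚ (J : K)) ^ 2 = (l : ℚ) ^ (p - 1) := by
      have := congrArg (fun x : 𝓞 K => Algebra.norm ℚ (x : K)) hmul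
      simp only [map_mul] at this
      rw [hnτ, ← sq] at this
      rw [this, show ((((l : ℕ) : 𝓞 K)) : K) = algebraMap ℚ K l by simp,
        Algebra.norm_algebraMap, hfr]
    have h' : ((Algebra.norm ℤ J : ℤ) : ℚ) ^ 2 = (l : ℚ) ^ (p - 1) := by
      rw [Algebra.coe_norm_int]; exact hK2
    have h'' : (Algebra.norm ℤ J : ℤ) ^ 2 = (l : ℤ) ^ (p - 1) := by exact_mod_cast h'
    rw [Ideal.absNorm_span_singleton, ← Int.natAbs_pow, h'', Int.natAbs_pow, Int.natAbs_natCast]
  obtain ⟨I, hI⟩ := hdvd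
  have hIn : Ideal.absNorm I = 1 := by
    rw [hI, map_mul, map_prod] at hN
    simp only [hPnorm, Finset.prod_const] at hN
    rw [mul_pow, ← pow_mul, mul_comm _ 2, two_mul_card_exponentSet hp2] at hN
    have hpos : l ^ (p - 1) ≠ 0 := pow_ne_zero _ hl.out.ne_zero
    have := (mul_eq_left₀ hpos).mp hN
    exact (pow_eq_one_iff_left (by norm_num : (2:ℕ) ≠ 0)).mp this
  rw [hI, Ideal.absNorm_eq_one_iff.mp hIn, Ideal.mul_top]

include hl hq hql hK in
/-- The `ω⁻¹` component of the class group of `ℚ(ζ_p)` is trivial: any character `lam` of ideals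
which kills principal ideals supported above `l` and satisfies `lam (σ_a q) = a⁻¹ lam q` vanishes
on a prime `q` of degree one. -/
theorem eigenchar_eq_zero (hp2 : Odd p) (hlp : l % p = 1) (lam : Ideal (𝓞 K) → ZMod p)
    (hequiv : ∀ σ : Gal(K/ℚ), lam (σ • q) =
      (((IsCyclotomicExtension.Rat.galEquivZMod p K σ)⁻¹ : (ZMod p)ˣ) : ZMod p) * lam q)
    (hprin : ∀ (x : 𝓞 K) (s : Finset (Ideal (𝓞 K))), x ≠ 0 →
      (∀ P ∈ s, P.IsPrime ∧ P.LiesOver (Ideal.span {(l : ℤ)})) →
      Ideal.span {x} = ∏ P ∈ s, P → ∑ P ∈ s, lam P = 0) :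
    lam q = 0 := by
  classical
  haveI : NeZero p := ⟨hp.out.ne_zero⟩
  obtain ⟨J, hJ0, hJ⟩ := exists_span_singleton_eq_prod_smul p q hp2 hlp
  set P : ℕ → Ideal (𝓞 K) :=
    fun c => (sigmaOf p K (Stickelberger.expUnit p c))⁻¹ • q with hP
  have hinjP : Set.InjOn P (Stickelberger.exponentSet p) := by
    intro a ha b hb h
    have h' := smul_inj (l := l) p q hlp h
    rw [inv_inj] at h'
    have h'' := congrArg (IsCyclotomicExtension.Rat.galEquivZMod p K) h'
    rw [galEquivZMod_sigmaOf, galEquivZMod_sigmaOf] at h''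
    rw [← expUnit_val p ha, h'', expUnit_val p hb]
  have hsum := hprin J ((Stickelberger.exponentSet p).image P) hJ0 ?_ ?_
  · rw [Finset.sum_image hinjP] at hsum
    have e : ∀ c ∈ Stickelberger.exponentSet p, lam (P c) = (c : ZMod p) * lam q := by
      intro c hc
      rw [hP, hequiv, map_inv, inv_inv, galEquivZMod_sigmaOf]
      congr 1
      conv_rhs => rw [← expUnit_val p hc, ZMod.natCast_zmod_val]
    rw [Finset.sum_congr rfl e, ← Finset.sum_mul, ← Nat.cast_sum] at hsum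
    exact (mul_eq_zero.mp hsum).resolve_left (eigenvalueScalar_ne_zero hp2)
  · intro Q hQ
    obtain ⟨c, -, rfl⟩ := Finset.mem_image.mp hQ
    exact ⟨Ideal.IsPrime.smul _, Ideal.LiesOver.smul _⟩
  · rw [Finset.prod_image hinjP]
    exact hJ

end Fermat.Agent.Stick
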